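import Fermat.Agent.S56.EC.KDT.Defs_KDO

set_option autoImplicit false
set_option linter.style.haveILetI false
set_option linter.unusedSectionVars false

/-!
# EC / KDALG, part KDO, leaf PSIADD (helper47)

`stmt_PSIADD : Stmt_PSIADD` (`EC/KDT/Defs_KDO.lean`): for a relatively projective `(V, ρ)` the
function `Ψ(A) = dim Hom_G(A*(ω), V)` is isomorphism-invariant and additive.

An intertwiner `f : A → A'` induces `pushInv f : Hom_G(A*(ω), V) → Hom_G(A'*(ω), V)`,
`T ↦ T ∘ f.dualMap`.  For `A₁ = W ≤ A`, `A₂ = A ⧸ W` the sequence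
`0 → Hom_G(A₁*(ω), V) → Hom_G(A*(ω), V) → Hom_G(A₂*(ω), V) → 0` is exact: on the right, an
invariant `T₂` is the image of the average `∑ g, ρ g ∘ Y ∘ twDual g⁻¹` of any linear extension
`Y` of `s₀ ∘ T₂`.
-/

noncomputable section

namespace Fermat.Agent.S56.EC.KDT.H47

open Module

section basics

variable {k : Type} [Field k] {G : Type} [Group G] (ω : G →* kˣ)
variable {V : Type} [AddCommGroup V] [Module k V] (ρ : Representation k G V)
variable {A : Type} [AddCommGroup A] [Module k A] (α : Representation k G A)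
variable {A' : Type} [AddCommGroup A'] [Module k A'] (α' : Representation k G A')

theorem twDual_mul (a b : G) : twDual ω α (a * b) = twDual ω α a ∘ₗ twDual ω α b := by
  apply LinearMap.ext
  intro φ
  apply LinearMap.ext
  intro x
  rw [LinearMap.comp_apply, twDual_apply, twDual_apply, twDual_apply, map_mul, Units.val_mul,
    mul_inv_rev, map_mul, Module.End.mul_apply, mul_assoc]

theorem twDual_one : twDual ω α 1 = LinearMap.id := by
  apply LinearMap.ext
  intro φ
  apply LinearMap.ext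
  intro x
  rw [twDual_apply, map_one, Units.val_one, one_mul, inv_one, map_one]
  rfl

/-- The dual of an intertwiner intertwines the twisted dual operators. -/
theorem dualMap_twDual (f : A →ₗ[k] A') (hf : ∀ g a, f (α g a) = α' g (f a)) (g : G) :
    f.dualMap ∘ₗ twDual ω α' g = twDual ω α g ∘ₗ f.dualMap := by
  apply LinearMap.ext
  intro φ
  apply LinearMap.ext
  intro a
  rw [LinearMap.comp_apply, LinearMap.comp_apply, LinearMap.dualMap_apply, twDual_apply,
    twDual_apply, LinearMap.dualMap_apply, hf]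

/-- An intertwiner `f : A → A'` maps `Hom_G(A*(ω), V)` to `Hom_G(A'*(ω), V)`. -/
theorem comp_dualMap_mem (f : A →ₗ[k] A') (hf : ∀ g a, f (α g a) = α' g (f a))
    {T : Module.Dual k A →ₗ[k] V} (hT : T ∈ invSub ω ρ α) :
    T ∘ₗ f.dualMap ∈ invSub ω ρ α' := by
  intro g
  rw [LinearMap.comp_assoc, dualMap_twDual ω α α' f hf g, ← LinearMap.comp_assoc, hT g,
    LinearMap.comp_assoc]

/-- `T ↦ T ∘ f.dualMap`, on the invariant subspaces. -/
def pushInv (f : A →ₗ[k] A') (hf : ∀ g a, f (α g a) = α' g (f a)) :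
    ↥(invSub ω ρ α) →ₗ[k] ↥(invSub ω ρ α') :=
  (LinearMap.lcomp k V f.dualMap).restrict (fun _ hT => comp_dualMap_mem ω ρ α α' f hf hT)

theorem pushInv_coe (f : A →ₗ[k] A') (hf : ∀ g a, f (α g a) = α' g (f a))
    (T : ↥(invSub ω ρ α)) :
    ((pushInv ω ρ α α' f hf T : ↥(invSub ω ρ α')) : Module.Dual k A' →ₗ[k] V) =
      (T : Module.Dual k A →ₗ[k] V) ∘ₗ f.dualMap := rfl

/-- The average of a linear map is invariant. -/
theorem avg_mem [Fintype G] (Y : Module.Dual k A →ₗ[k] V) :
    (∑ g : G, (ρ g ∘ₗ Y) ∘ₗ twDual ω α g⁻¹) ∈ invSub ω ρ α := by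
  rw [mem_invSub]
  intro h φ
  rw [LinearMap.sum_apply, LinearMap.sum_apply, map_sum]
  refine Fintype.sum_equiv (Equiv.mulLeft h⁻¹) _ _ (fun g => ?_)
  show ρ g (Y (twDual ω α g⁻¹ (twDual ω α h φ))) =
    ρ h (ρ (h⁻¹ * g) (Y (twDual ω α (h⁻¹ * g)⁻¹ φ)))
  rw [← LinearMap.comp_apply (twDual ω α g⁻¹), ← twDual_mul, ← Module.End.mul_apply (ρ h),
    ← map_mul, mul_inv_cancel_left, mul_inv_rev, inv_inv]

end basics

section exact

variable {k : Type} [Field k] {G : Type} [Group G] (ω : G →* kˣ)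
variable {V : Type} [AddCommGroup V] [Module k V] (ρ : Representation k G V)
variable {A : Type} [AddCommGroup A] [Module k A] (α : Representation k G A)
variable (W : Submodule k A) (hW : ∀ g, W ≤ W.comap (α g))

theorem subtype_intertwines (g : G) (a : W) :
    W.subtype (α.subrepresentation W hW g a) = α g (W.subtype a) := rfl

theorem mkQ_intertwines (g : G) (a : A) :
    W.mkQ (α g a) = α.quotient W hW g (W.mkQ a) := rfl

/-- `Hom_G(W*(ω), V) → Hom_G(A*(ω), V)`. -/
def pushSub : ↥(invSub ω ρ (α.subrepresentation W hW)) →ₗ[k] ↥(invSub ω ρ α) :=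
  pushInv ω ρ (α.subrepresentation W hW) α W.subtype (subtype_intertwines α W hW)

/-- `Hom_G(A*(ω), V) → Hom_G((A/W)*(ω), V)`. -/
def pushQuot : ↥(invSub ω ρ α) →ₗ[k] ↥(invSub ω ρ (α.quotient W hW)) :=
  pushInv ω ρ α (α.quotient W hW) W.mkQ (mkQ_intertwines α W hW)

theorem dualMap_subtype_surjective : Function.Surjective W.subtype.dualMap :=
  LinearMap.dualMap_surjective_of_injective W.injective_subtype

theorem dualMap_mkQ_injective : Function.Injective W.mkQ.dualMap :=
  LinearMap.dualMap_injective_of_surjective W.mkQ_surjective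

theorem pushSub_injective : Function.Injective (pushSub ω ρ α W hW) := by
  intro T T' h
  have h1 : (T : Module.Dual k W →ₗ[k] V) ∘ₗ W.subtype.dualMap =
      (T' : Module.Dual k W →ₗ[k] V) ∘ₗ W.subtype.dualMap := congrArg Subtype.val h
  exact Subtype.ext ((LinearMap.cancel_right (dualMap_subtype_surjective W)).1 h1)

/-- A functional vanishing on `W` comes from the quotient. -/
theorem mem_range_dualMap_mkQ {φ : Module.Dual k A} (h : W.subtype.dualMap φ = 0) :
    φ ∈ LinearMap.range W.mkQ.dualMap := by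
  have h1 : W ≤ LinearMap.ker φ := by
    intro w hw
    have := LinearMap.congr_fun h ⟨w, hw⟩
    exact this
  exact ⟨W.liftQ φ h1, W.liftQ_mkQ φ h1⟩

theorem range_pushSub :
    LinearMap.range (pushSub ω ρ α W hW) = LinearMap.ker (pushQuot ω ρ α W hW) := by
  apply le_antisymm
  · rintro _ ⟨T₁, rfl⟩
    rw [LinearMap.mem_ker]
    apply Subtype.ext
    show ((T₁ : Module.Dual k W →ₗ[k] V) ∘ₗ W.subtype.dualMap) ∘ₗ W.mkQ.dualMap = 0
    rw [LinearMap.comp_assoc, LinearMap.dualMap_comp_dualMap]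
    have h0 : W.mkQ ∘ₗ W.subtype = 0 := by
      apply LinearMap.ext
      intro w
      simp
    rw [h0]
    apply LinearMap.ext
    intro ψ
    rw [LinearMap.comp_apply]
    have h00 : (0 : ↥W →ₗ[k] A ⧸ W).dualMap ψ = 0 := by
      apply LinearMap.ext
      intro w
      rw [LinearMap.dualMap_apply, LinearMap.zero_apply, map_zero, LinearMap.zero_apply]
    rw [h00, map_zero]
    rfl
  · intro T hT
    rw [LinearMap.mem_ker] at hT
    have hT0 : (T : Module.Dual k A →ₗ[k] V) ∘ₗ W.mkQ.dualMap = 0 := congrArg Subtype.val hT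
    obtain ⟨r', hr'⟩ := LinearMap.exists_rightInverse_of_surjective W.subtype.dualMap
      (LinearMap.range_eq_top.2 (dualMap_subtype_surjective W))
    -- `T = T₁ ∘ r` with `T₁ = T ∘ r'`
    have hfac : ((T : Module.Dual k A →ₗ[k] V) ∘ₗ r') ∘ₗ W.subtype.dualMap =
        (T : Module.Dual k A →ₗ[k] V) := by
      apply LinearMap.ext
      intro φ
      rw [LinearMap.comp_apply, LinearMap.comp_apply]
      have h1 : W.subtype.dualMap (r' (W.subtype.dualMap φ) - φ) = 0 := by
        rw [map_sub]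
        have := LinearMap.congr_fun hr' (W.subtype.dualMap φ)
        rw [LinearMap.comp_apply, LinearMap.id_apply] at this
        rw [this, sub_self]
      obtain ⟨ψ, hψ⟩ := mem_range_dualMap_mkQ W h1
      have h2 : (T : Module.Dual k A →ₗ[k] V) (r' (W.subtype.dualMap φ) - φ) = 0 := by
        rw [← hψ]
        exact LinearMap.congr_fun hT0 ψ
      rw [map_sub, sub_eq_zero] at h2
      exact h2
    have hmem : (T : Module.Dual k A →ₗ[k] V) ∘ₗ r' ∈ invSub ω ρ (α.subrepresentation W hW) := by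
      intro g
      apply (LinearMap.cancel_right (dualMap_subtype_surjective W)).1
      rw [LinearMap.comp_assoc,
        ← dualMap_twDual ω (α.subrepresentation W hW) α W.subtype (subtype_intertwines α W hW) g,
        ← LinearMap.comp_assoc, hfac, T.2 g, LinearMap.comp_assoc, hfac]
    exact ⟨⟨_, hmem⟩, Subtype.ext hfac⟩

theorem pushQuot_surjective [Fintype G] {s₀ : V →ₗ[k] V}
    (hs₀ : ∀ v, ∑ g : G, ρ g (s₀ (ρ g⁻¹ v)) = v) :
    Function.Surjective (pushQuot ω ρ α W hW) := by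
  intro T₂
  obtain ⟨q', hq'⟩ := LinearMap.exists_leftInverse_of_injective W.mkQ.dualMap
    (LinearMap.ker_eq_bot.2 (dualMap_mkQ_injective W))
  set Y : Module.Dual k A →ₗ[k] V :=
    (s₀ ∘ₗ (T₂ : Module.Dual k (A ⧸ W) →ₗ[k] V)) ∘ₗ q' with hY
  refine ⟨⟨∑ g : G, (ρ g ∘ₗ Y) ∘ₗ twDual ω α g⁻¹, avg_mem ω ρ α Y⟩, ?_⟩
  apply Subtype.ext
  show (∑ g : G, (ρ g ∘ₗ Y) ∘ₗ twDual ω α g⁻¹) ∘ₗ W.mkQ.dualMap =
    (T₂ : Module.Dual k (A ⧸ W) →ₗ[k] V)
  apply LinearMap.ext
  intro ψ
  rw [LinearMap.comp_apply, LinearMap.sum_apply]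
  have h1 : ∀ g : G, ((ρ g ∘ₗ Y) ∘ₗ twDual ω α g⁻¹) (W.mkQ.dualMap ψ) =
      ρ g (s₀ (ρ g⁻¹ ((T₂ : Module.Dual k (A ⧸ W) →ₗ[k] V) ψ))) := by
    intro g
    have h2 : twDual ω α g⁻¹ (W.mkQ.dualMap ψ) =
        W.mkQ.dualMap (twDual ω (α.quotient W hW) g⁻¹ ψ) :=
      (LinearMap.congr_fun
        (dualMap_twDual ω α (α.quotient W hW) W.mkQ (mkQ_intertwines α W hW) g⁻¹) ψ).symm
    have h3 : ∀ x, Y (W.mkQ.dualMap x) = s₀ ((T₂ : Module.Dual k (A ⧸ W) →ₗ[k] V) x) := by
      intro x
      have := LinearMap.congr_fun hq' x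
      rw [LinearMap.comp_apply, LinearMap.id_apply] at this
      show s₀ ((T₂ : Module.Dual k (A ⧸ W) →ₗ[k] V) (q' (W.mkQ.dualMap x))) = _
      rw [this]
    rw [LinearMap.comp_apply, LinearMap.comp_apply, h2, h3,
      (mem_invSub ω ρ (α.quotient W hW) _).1 T₂.2 g⁻¹ ψ]
  rw [Finset.sum_congr rfl (fun g _ => h1 g)]
  exact hs₀ _

/-- **Additivity of the dimensions.** -/
theorem finrank_invSub_add [Fintype G] [FiniteDimensional k V] [FiniteDimensional k A]
    {s₀ : V →ₗ[k] V} (hs₀ : ∀ v, ∑ g : G, ρ g (s₀ (ρ g⁻¹ v)) = v) :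
    finrank k ↥(invSub ω ρ α) =
      finrank k ↥(invSub ω ρ (α.subrepresentation W hW)) +
        finrank k ↥(invSub ω ρ (α.quotient W hW)) := by
  have h1 := LinearMap.finrank_range_add_finrank_ker (pushQuot ω ρ α W hW)
  rw [LinearMap.range_eq_top.2 (pushQuot_surjective ω ρ α W hW hs₀), finrank_top,
    ← range_pushSub ω ρ α W hW,
    LinearMap.finrank_range_of_inj (pushSub_injective ω ρ α W hW)] at h1
  rw [← h1, add_comm]

end exact

section iso

variable {k : Type} [Field k] {G : Type} [Group G] (ω : G →* kˣ)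
variable {V : Type} [AddCommGroup V] [Module k V] (ρ : Representation k G V)
variable {A : Type} [AddCommGroup A] [Module k A] (α : Representation k G A)
variable {A' : Type} [AddCommGroup A'] [Module k A'] (α' : Representation k G A')

theorem pushInv_equiv_injective (e : A ≃ₗ[k] A') (he : ∀ g a, e (α g a) = α' g (e a)) :
    Function.Injective (pushInv ω ρ α α' e.toLinearMap he) := by
  intro T T' h
  have h1 : (T : Module.Dual k A →ₗ[k] V) ∘ₗ e.toLinearMap.dualMap =
      (T' : Module.Dual k A →ₗ[k] V) ∘ₗ e.toLinearMap.dualMap := congrArg Subtype.val h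
  have hs : Function.Surjective e.toLinearMap.dualMap :=
    LinearMap.dualMap_surjective_of_injective e.injective
  exact Subtype.ext ((LinearMap.cancel_right hs).1 h1)

theorem finrank_invSub_iso [FiniteDimensional k V] [FiniteDimensional k A]
    (e : A ≃ₗ[k] A') (he : ∀ g a, e (α g a) = α' g (e a)) :
    finrank k ↥(invSub ω ρ α) = finrank k ↥(invSub ω ρ α') := by
  haveI : FiniteDimensional k A' := LinearEquiv.finiteDimensional e
  have he' : ∀ g a, e.symm (α' g a) = α g (e.symm a) := by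
    intro g a
    rw [LinearEquiv.symm_apply_eq, he, LinearEquiv.apply_symm_apply]
  apply le_antisymm
  · exact LinearMap.finrank_le_finrank_of_injective (pushInv_equiv_injective ω ρ α α' e he)
  · exact LinearMap.finrank_le_finrank_of_injective
      (pushInv_equiv_injective ω ρ α' α e.symm he')

end iso

/-- **PSIADD.** -/
theorem stmt_PSIADD : Stmt_PSIADD := by
  intro k _ G _ _ ω V _ _ _ ρ s₀ hs₀
  letI : Fintype G := Fintype.ofFinite G
  have hs : ∀ v, ∑ g : G, ρ g (s₀ (ρ g⁻¹ v)) = v := fun v => hs₀ v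
  refine ⟨?_, ?_⟩
  · intro A A' _ _ _ _ _ α α' e he
    show ((finrank k ↥(invSub ω ρ α) : ℕ) : ℤ) = ((finrank k ↥(invSub ω ρ α') : ℕ) : ℤ)
    rw [finrank_invSub_iso ω ρ α α' e he]
  · intro A _ _ _ α W hW
    show ((finrank k ↥(invSub ω ρ α) : ℕ) : ℤ) =
      ((finrank k ↥(invSub ω ρ (α.subrepresentation W hW)) : ℕ) : ℤ) +
        ((finrank k ↥(invSub ω ρ (α.quotient W hW)) : ℕ) : ℤ)
    rw [finrank_invSub_add ω ρ α W hW hs, Nat.cast_add]

end Fermat.Agent.S56.EC.KDT.H47

end
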