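import Fermat.Agent.S56.EC.KDT.H74_KDO
import Fermat.Agent.S56.EC.KDT.H47_PsiAdd
import Fermat.Agent.S56.GW.H92_FinGlobFinal

set_option autoImplicit false

/-!
# EC / KDALG: DONE

`stmt_KDALG : Stmt_KDALG`, i.e.
`Stmt_SHAPlb → Stmt_SHAPub → Stmt_KUM → Stmt_UBR → Stmt_LOC0 → Stmt_KDT ∧ Stmt_KDO`.

Pieces: KDT part, BNREL, PSIPERM, PSICHAR, assembly (helper74); projector, HIGMAN, PSIADD
(helper47); LINK (helper15).
-/

namespace Fermat.Agent.S56.EC.KDT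

theorem stmt_KDALG : Stmt_KDALG :=
  stmt_KDALG_of H47.stmt_PSIADD Fermat.Agent.S56.H92.stmt_fin_glob

end Fermat.Agent.S56.EC.KDT
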