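import Fermat.Agent.S56.EC.KDT.H74_KDT

set_option autoImplicit false
set_option linter.unusedSectionVars false

/-!
# EC / KDALG, part KDO: interfaces (owner helper74; route of helper47's note "KDALG without Mackey")

`G` a finite group, `ω : G →* kˣ`, `(V, ρ)` a finite-dimensional representation which is
relatively projective (`IsRelProj ρ s₀`: `∑_g ρ(g) s₀ ρ(g)⁻¹ = id`; for `V = Ind_B^G W`, `p ∤ #B`:
`EC.H47.exists_relProj`).  For a representation `(A, α)`:

* `twDual ω α g = ω(g) • α.dual g`          the operators of `A*(ω)` on `Dual A`;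
* `invSub ω ρ α = Hom_G(A*(ω), V)`          `{T : Dual A →ₗ V | T ∘ twDual ω α g = ρ g ∘ T}`;
* `psi ω ρ A = dim invSub ω ρ A.ρ`           (as an integer);
* `twFix ω ρ D = {v | ρ d v = ω(d) v ∀ d ∈ D}`;
* `charRep ω`                                the one-dimensional representation `ω`.

Leaves (`theorem … : Stmt_X` in `Fermat/Agent/S56/EC/KDT/H<seat>_<Name>.lean`,
namespace `Fermat.Agent.S56.EC.KDT.H<seat>`):
`Stmt_PSIADD`, `Stmt_PSIPERM`, `Stmt_PSICHAR`, `Stmt_HIGMAN`, `Stmt_LINK`, `Stmt_BNREL`.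
Assembly (`H74_KDO.lean`): `Stmt_KDO` from these + `Stmt_SHAPlb`, `Stmt_KUM`, `Stmt_UBR`,
`Stmt_LOC0`.
-/

noncomputable section

namespace Fermat.Agent.S56.EC.KDT

open CategoryTheory groupCohomology ExtCitation Module

section defs

variable {k : Type} [Field k] {G : Type} [Group G]

/-- The operators of `A*(ω)` on `Dual A`: `ω(g) • α.dual g`. -/
def twDual (ω : G →* kˣ) {A : Type} [AddCommGroup A] [Module k A] (α : Representation k G A)
    (g : G) : Module.Dual k A →ₗ[k] Module.Dual k A :=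
  ((ω g : kˣ) : k) • (α.dual g)

theorem twDual_apply (ω : G →* kˣ) {A : Type} [AddCommGroup A] [Module k A]
    (α : Representation k G A) (g : G) (φ : Module.Dual k A) (a : A) :
    twDual ω α g φ a = ((ω g : kˣ) : k) * φ (α g⁻¹ a) := rfl

/-- `Hom_G(A*(ω), V)`: the linear maps `T : Dual A → V` with `T ∘ (ω(g) α.dual g) = ρ g ∘ T`. -/
def invSub (ω : G →* kˣ) {V : Type} [AddCommGroup V] [Module k V] (ρ : Representation k G V)
    {A : Type} [AddCommGroup A] [Module k A] (α : Representation k G A) :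
    Submodule k (Module.Dual k A →ₗ[k] V) where
  carrier := {T | ∀ g, T ∘ₗ twDual ω α g = ρ g ∘ₗ T}
  add_mem' := by
    intro T T' hT hT' g
    rw [LinearMap.add_comp, LinearMap.comp_add, hT g, hT' g]
  zero_mem' := by
    intro g
    rw [LinearMap.zero_comp, LinearMap.comp_zero]
  smul_mem' := by
    intro c T hT g
    rw [LinearMap.smul_comp, LinearMap.comp_smul, hT g]

theorem mem_invSub (ω : G →* kˣ) {V : Type} [AddCommGroup V] [Module k V]
    (ρ : Representation k G V) {A : Type} [AddCommGroup A] [Module k A]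
    (α : Representation k G A) (T : Module.Dual k A →ₗ[k] V) :
    T ∈ invSub ω ρ α ↔ ∀ g φ, T (twDual ω α g φ) = ρ g (T φ) := by
  constructor
  · intro h g φ
    exact LinearMap.congr_fun (h g) φ
  · intro h g
    exact LinearMap.ext (h g)

/-- `Ψ(A) = dim Hom_G(A*(ω), V)`. -/
def psi (ω : G →* kˣ) {V : Type} [AddCommGroup V] [Module k V] (ρ : Representation k G V)
    (A : Rep.{0} k G) : ℤ :=
  (finrank k ↥(invSub ω ρ A.ρ) : ℤ)

/-- `V^{D,ω} = {v | ρ d v = ω(d) v for all d ∈ D}`. -/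
def twFix (ω : G →* kˣ) {V : Type} [AddCommGroup V] [Module k V] (ρ : Representation k G V)
    (D : Set G) : Submodule k V where
  carrier := {v | ∀ d ∈ D, ρ d v = ((ω d : kˣ) : k) • v}
  add_mem' := by
    intro v w hv hw d hd
    rw [map_add, hv d hd, hw d hd, smul_add]
  zero_mem' := by
    intro d _
    rw [map_zero, smul_zero]
  smul_mem' := by
    intro c v hv d hd
    rw [map_smul, hv d hd, smul_comm]

/-- The one-dimensional representation `ω`. -/
def charRep (ω : G →* kˣ) : Representation k G k where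
  toFun g := ((ω g : kˣ) : k) • LinearMap.id
  map_one' := by
    rw [map_one, Units.val_one, one_smul]
    rfl
  map_mul' g h := by
    apply LinearMap.ext
    intro x
    show ((ω (g * h) : kˣ) : k) * x = ((ω g : kˣ) : k) * (((ω h : kˣ) : k) * x)
    rw [map_mul, Units.val_mul, mul_assoc]

theorem charRep_apply (ω : G →* kˣ) (g : G) (x : k) : charRep ω g x = ((ω g : kˣ) : k) * x := rfl

/-- Relative projectivity: `∑_g ρ(g) s₀ ρ(g)⁻¹ = id`. -/
def IsRelProj {V : Type} [AddCommGroup V] [Module k V] (ρ : Representation k G V)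
    (s₀ : V →ₗ[k] V) : Prop :=
  ∀ [Fintype G], ∀ v, ∑ g : G, ρ g (s₀ (ρ g⁻¹ v)) = v

end defs

/-! ### The leaves -/

/-- **PSIADD**: `Ψ` is additive and isomorphism-invariant when `V` is relatively projective.
(`0 → Hom_G(A₁*(ω), V) → Hom_G(A*(ω), V) → Hom_G(A₂*(ω), V) → 0` for `A₁ ≤ A`, `A₂ = A/A₁`:
`T₁ ↦ T₁ ∘ restriction`, `T ↦ T ∘ (mkQ).dualMap`; onto: for invariant `T₂` take a linear lift
`Y` of `s₀ ∘ T₂` along `(mkQ).dualMap` (injective) and average,
`T = ∑_g ρ(g) ∘ Y ∘ twDual ω α g⁻¹`.) -/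
def Stmt_PSIADD : Prop :=
  ∀ (k : Type) [Field k] (G : Type) [Group G] [Finite G] (ω : G →* kˣ)
    (V : Type) [AddCommGroup V] [Module k V] [FiniteDimensional k V]
    (ρ : Representation k G V) (s₀ : V →ₗ[k] V), IsRelProj ρ s₀ →
    IND.IsAdditiveFn k G (psi ω ρ)

/-- **PSIPERM**: `Ψ(k[G/D]) = dim V^{D,ω}`  (`T ↦ T (ev_{1·D})`; the evaluations `ev_x` form a
basis of `Dual (G ⧸ D → k)` and `twDual ω (permRep) g (ev_x) = ω(g) ev_{g x}`).
No projectivity needed. -/
def Stmt_PSIPERM : Prop :=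
  ∀ (k : Type) [Field k] (G : Type) [Group G] [Finite G] (ω : G →* kˣ)
    (V : Type) [AddCommGroup V] [Module k V] [FiniteDimensional k V]
    (ρ : Representation k G V) (D : Subgroup G),
    psi ω ρ (Rep.of (IND.permRep k G (G ⧸ D))) = (finrank k ↥(twFix ω ρ (D : Set G)) : ℤ)

/-- **PSICHAR**: `Ψ(k(ω)) = dim V^G`  (`Dual k` is a line on which `twDual ω (charRep ω)` is
trivial). -/
def Stmt_PSICHAR : Prop :=
  ∀ (k : Type) [Field k] (G : Type) [Group G] [Finite G] (ω : G →* kˣ)
    (V : Type) [AddCommGroup V] [Module k V] [FiniteDimensional k V]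
    (ρ : Representation k G V),
    psi ω ρ (Rep.of (charRep ω)) = (finrank k ↥(ρ.invariants) : ℤ)

/-- **HIGMAN** (norm form; helper47): for relatively projective `V` and every subgroup `D`,
`dim V^{D,ω} = dim (V*(ω))^D`. -/
def Stmt_HIGMAN : Prop :=
  ∀ (p : ℕ) [Fact p.Prime] (G : Type) [Group G] [Finite G] (ω : G →* (ZMod p)ˣ)
    (V : Type) [AddCommGroup V] [Module (ZMod p) V] [FiniteDimensional (ZMod p) V]
    (ρ : Representation (ZMod p) G V) (s₀ : V →ₗ[ZMod p] V), IsRelProj ρ s₀ →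
    ∀ D : Subgroup G, finrank (ZMod p) ↥(twFix ω ρ (D : Set G)) =
      finrank (ZMod p) ↥(fixedSub p (D : Set G) (twDual ω ρ))

/-- **LINK** (Kummer classes give equivariant homomorphisms): for `κ` as in `Stmt_KUM`
(injective, equivariant) and `V = Ind_B^G W`, `p ∤ #B`, there is an injective linear map
`Hom_G(U*(ω), V) → EqLevHom p S L ρ B W`, namely `T ↦ (σ ↦ e (T (u ↦ κ u σ)))` with `e` the
projector of `EC.H47.exists_indProj`.
(`h_T σ := T (u ↦ κ u σ)` is additive and of level `S` (the common level of `κ u_i`, `u_i` a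
basis), `h_T (g σ g⁻¹) = ρ(g) h_T(σ)`; `T ↦ h_T` is injective because the functionals
`u ↦ κ u σ` span `Dual U` (`κ` injective); `h ↦ e ∘ h` is injective on equivariant `h` since
`#B • h σ = ∑_g ρ(g) e (h (g⁻¹ σ g))`.) -/
def Stmt_LINK : Prop :=
  ∀ (p : ℕ) [Fact p.Prime] (S : Finset Nat.Primes), pPrime p ∈ S →
    ∀ (L : IntermediateField ℚ (AlgebraicClosure ℚ)) [Normal ℚ L] [FiniteDimensional ℚ L]
      (hL : IsGalLevel p S L),
      FiniteDimensional (ZMod p) (UmodP p S L) →
      ∀ κ : UmodP p S L →ₗ[ZMod p] (↥L.fixingSubgroup → ZMod p),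
        Function.Injective κ → (∀ u, κ u ∈ LevHom p S L (ZMod p)) →
        (∀ (g : GQ) (u : UmodP p S L) (σ : ↥L.fixingSubgroup),
          κ (unitRep p S L (resL L g) u) (conjL L g σ) =
            ((cycloChar p g : (ZMod p)ˣ) : ZMod p) * κ u σ) →
      ∀ (V : Type) [AddCommGroup V] [Module (ZMod p) V] [FiniteDimensional (ZMod p) V]
        (ρ : Representation (ZMod p) (GalL L) V) (B : Subgroup (GalL L))
        (W : Submodule (ZMod p) V),
        ¬ p ∣ Nat.card B → IND.IsInducedFrom ρ B W →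
        ∃ f : ↥(invSub (omegaHom hL) ρ (unitRep p S L)) →ₗ[ZMod p] ↥(EqLevHom p S L ρ B W),
          Function.Injective f

/-- **BNREL** (Brauer-Nesbitt applied to the equivariant unit theorem): for every additive
function `F`,  `F(U) + F(𝟙) = F(𝔽(ω)) + ∑_{q ∈ S} F(𝔽[G/D_q]) + F(𝔽[G/D_∞])`.
(`Stmt_UBR` and `IND.H74.stmt_PERM` give the relation between Brauer characters at `p`-regular
elements, `IND.brauer_pow_card_pow` at all elements; `IND.H74.stmt_BN`.) -/
def Stmt_BNREL : Prop :=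
  Stmt_UBR →
  ∀ (p : ℕ) [Fact p.Prime], p ≠ 2 → ∀ (S : Finset Nat.Primes), pPrime p ∈ S →
    ∀ (L : IntermediateField ℚ (AlgebraicClosure ℚ)) [Normal ℚ L] [FiniteDimensional ℚ L]
      (hL : IsGalLevel p S L) (F : Rep.{0} (ZMod p) (GalL L) → ℤ),
      IND.IsAdditiveFn (ZMod p) (GalL L) F →
      F (Rep.of (unitRep p S L)) +
          F (Rep.of (IND.permRep (ZMod p) (GalL L) (GalL L ⧸ (⊤ : Subgroup (GalL L))))) =
        F (Rep.of (charRep (omegaHom hL))) +
          ∑ q ∈ S, F (Rep.of (IND.permRep (ZMod p) (GalL L) (GalL L ⧸ decL L q))) +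
          F (Rep.of (IND.permRep (ZMod p) (GalL L) (GalL L ⧸ decInf L)))

end Fermat.Agent.S56.EC.KDT

end
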