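/-
S56 / GW-CORE, package EC, part KDO, leaf LINK (helper15): `stmt_LINK : Stmt_LINK`.

For `T ∈ Hom_G(U*(ω), V)` put `h_T σ = T (u ↦ κ u σ)`; `h_T` is additive, of level `S` and
`G`-equivariant; `f T = e ∘ h_T` with the projector `e` of `V = Ind_B^G W`.  Injectivity:
`#B • h_T σ = ∑_g ρ(g) e (h_T (g⁻¹ σ g))` and the functionals `u ↦ κ u σ` span `Dual U`.
-/
import Fermat.Agent.S56.EC.KDT.Defs_KDO
import Fermat.Agent.S56.EC.H47_IndProj

set_option autoImplicit false
set_option linter.unusedSectionVars false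
set_option linter.style.haveILetI false
set_option linter.unusedVariables false

noncomputable section

namespace Fermat.Agent.S56.EC.KDT.H15

open CategoryTheory groupCohomology ExtCitation Module Fermat.Agent.S55

section link

variable {p : ℕ} [Fact p.Prime] {S : Finset Nat.Primes}
  {L : IntermediateField ℚ (AlgebraicClosure ℚ)} [Normal ℚ L] [FiniteDimensional ℚ L]
  (κ : UmodP p S L →ₗ[ZMod p] (↥L.fixingSubgroup → ZMod p))

/-- The functional `u ↦ κ u σ`. -/
def evK (σ : ↥L.fixingSubgroup) : Module.Dual (ZMod p) (UmodP p S L) :=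
  (LinearMap.proj σ) ∘ₗ κ

theorem evK_apply (σ : ↥L.fixingSubgroup) (u : UmodP p S L) : evK κ σ u = κ u σ := rfl

theorem evK_mul (hκ : ∀ u, κ u ∈ LevHom p S L (ZMod p)) (σ τ : ↥L.fixingSubgroup) :
    evK κ (σ * τ) = evK κ σ + evK κ τ :=
  LinearMap.ext fun u => (hκ u).1 σ τ

/-- A finite supremum of fields unramified outside `S`. -/
theorem isUnramifiedOutside_finset_sup {ι : Type} (s : Finset ι)
    (F : ι → IntermediateField ℚ (AlgebraicClosure ℚ))
    (hF : ∀ i, (F i).IsUnramifiedOutside S) : (s.sup F).IsUnramifiedOutside S :=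
  Finset.sup_induction (p := fun K : IntermediateField ℚ (AlgebraicClosure ℚ) =>
      K.IsUnramifiedOutside S) (IntermediateField.isUnramifiedOutside_bot S)
    (fun _ ha _ hb => IntermediateField.IsUnramifiedOutside.sup ha hb) (fun i _ => hF i)

/-- A common level of all `κ u`. -/
theorem exists_common_level (hfin : FiniteDimensional (ZMod p) (UmodP p S L))
    (hκ : ∀ u, κ u ∈ LevHom p S L (ZMod p)) :
    ∃ F : IntermediateField ℚ (AlgebraicClosure ℚ), F.IsUnramifiedOutside S ∧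
      ∀ (g s : ↥L.fixingSubgroup), (s : GQ) ∈ F.fixingSubgroup → evK κ (g * s) = evK κ g := by
  haveI : NeZero p := ⟨(Fact.out : p.Prime).ne_zero⟩
  haveI : Finite (UmodP p S L) := Module.finite_of_finite (ZMod p)
  letI : Fintype (UmodP p S L) := Fintype.ofFinite _
  have h1 : ∀ u, ∃ F : IntermediateField ℚ (AlgebraicClosure ℚ), F.IsUnramifiedOutside S ∧
      ∀ g s : ↥L.fixingSubgroup, (s : GQ) ∈ F.fixingSubgroup → κ u (g * s) = κ u g :=
    fun u => (hκ u).2
  choose F hF hFl using h1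
  refine ⟨Finset.univ.sup F, isUnramifiedOutside_finset_sup _ F hF, fun g s hs => ?_⟩
  apply LinearMap.ext
  intro u
  exact hFl u g s (IntermediateField.fixingSubgroup_antitone
    (Finset.le_sup (Finset.mem_univ u)) hs)

/-- The functionals `u ↦ κ u σ` span the dual when `κ` is injective. -/
theorem span_evK (hfin : FiniteDimensional (ZMod p) (UmodP p S L))
    (hinj : Function.Injective κ) :
    Submodule.span (ZMod p) (Set.range (evK κ)) = ⊤ := by
  have h1 : (Submodule.span (ZMod p) (Set.range (evK κ))).dualCoannihilator = ⊥ := by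
    rw [eq_bot_iff]
    intro u hu
    rw [Submodule.mem_dualCoannihilator] at hu
    rw [Submodule.mem_bot]
    apply hinj
    rw [map_zero]
    funext σ
    exact hu (evK κ σ) (Submodule.subset_span ⟨σ, rfl⟩)
  have h2 := Subspace.dualCoannihilator_dualAnnihilator_eq
    (W := Submodule.span (ZMod p) (Set.range (evK κ)))
  rw [h1, Submodule.dualAnnihilator_bot] at h2
  exact h2.symm

/-- Equivariance of the functionals. -/
theorem evK_conj (hL : IsGalLevel p S L)
    (heq : ∀ (g : GQ) (u : UmodP p S L) (σ : ↥L.fixingSubgroup),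
      κ (unitRep p S L (resL L g) u) (conjL L g σ) =
        ((cycloChar p g : (ZMod p)ˣ) : ZMod p) * κ u σ)
    (g : GQ) (σ : ↥L.fixingSubgroup) :
    evK κ (conjL L g σ) = twDual (omegaHom hL) (unitRep p S L) (resL L g) (evK κ σ) := by
  apply LinearMap.ext
  intro u
  rw [twDual_apply, evK_apply, evK_apply, omegaHom_apply, omegaL_resL hL, ← heq,
    ← Module.End.mul_apply, ← map_mul, mul_inv_cancel, map_one, Module.End.one_apply]

variable {V : Type} [AddCommGroup V] [Module (ZMod p) V] [FiniteDimensional (ZMod p) V]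
  (ρ : Representation (ZMod p) (GalL L) V)

/-- `h_T σ = T (u ↦ κ u σ)` is `G`-equivariant. -/
theorem hT_conj (hL : IsGalLevel p S L)
    (heq : ∀ (g : GQ) (u : UmodP p S L) (σ : ↥L.fixingSubgroup),
      κ (unitRep p S L (resL L g) u) (conjL L g σ) =
        ((cycloChar p g : (ZMod p)ˣ) : ZMod p) * κ u σ)
    {T : Module.Dual (ZMod p) (UmodP p S L) →ₗ[ZMod p] V}
    (hT : T ∈ invSub (omegaHom hL) ρ (unitRep p S L)) (g : GQ) (σ : ↥L.fixingSubgroup) :
    T (evK κ (conjL L g σ)) = ρ (resL L g) (T (evK κ σ)) := by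
  rw [evK_conj κ hL heq, (mem_invSub _ _ _ _).1 hT]

/-- The map `T ↦ e ∘ h_T` lands in the equivariant level-`S` homomorphisms. -/
theorem link_mem (hL : IsGalLevel p S L) (hfin : FiniteDimensional (ZMod p) (UmodP p S L))
    (hκ : ∀ u, κ u ∈ LevHom p S L (ZMod p))
    (heq : ∀ (g : GQ) (u : UmodP p S L) (σ : ↥L.fixingSubgroup),
      κ (unitRep p S L (resL L g) u) (conjL L g σ) =
        ((cycloChar p g : (ZMod p)ˣ) : ZMod p) * κ u σ)
    (B : Subgroup (GalL L)) (W : Submodule (ZMod p) V) (e : V →ₗ[ZMod p] V)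
    (he3 : ∀ v, e v ∈ W) (he4 : ∀ b ∈ B, ∀ v, e (ρ b v) = ρ b (e v))
    {T : Module.Dual (ZMod p) (UmodP p S L) →ₗ[ZMod p] V}
    (hT : T ∈ invSub (omegaHom hL) ρ (unitRep p S L)) :
    (fun σ : ↥L.fixingSubgroup => e (T (evK κ σ))) ∈ EqLevHom p S L ρ B W := by
  refine ⟨⟨fun σ τ => ?_, ?_⟩, fun σ => he3 _, fun g hg σ => ?_⟩
  · show e (T (evK κ (σ * τ))) = e (T (evK κ σ)) + e (T (evK κ τ))
    rw [evK_mul κ hκ, map_add, map_add]
  · obtain ⟨F, hF, hl⟩ := exists_common_level κ hfin hκ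
    refine ⟨F, hF, fun g s hs => ?_⟩
    show e (T (evK κ (g * s))) = e (T (evK κ g))
    rw [hl g s hs]
  · show e (T (evK κ (conjL L g σ))) = ρ (resL L g) (e (T (evK κ σ)))
    rw [hT_conj κ ρ hL heq hT, he4 _ hg]

/-- The linear map `T ↦ e ∘ h_T`. -/
def linkMap (hL : IsGalLevel p S L) (hfin : FiniteDimensional (ZMod p) (UmodP p S L))
    (hκ : ∀ u, κ u ∈ LevHom p S L (ZMod p))
    (heq : ∀ (g : GQ) (u : UmodP p S L) (σ : ↥L.fixingSubgroup),
      κ (unitRep p S L (resL L g) u) (conjL L g σ) =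
        ((cycloChar p g : (ZMod p)ˣ) : ZMod p) * κ u σ)
    (B : Subgroup (GalL L)) (W : Submodule (ZMod p) V) (e : V →ₗ[ZMod p] V)
    (he3 : ∀ v, e v ∈ W) (he4 : ∀ b ∈ B, ∀ v, e (ρ b v) = ρ b (e v)) :
    ↥(invSub (omegaHom hL) ρ (unitRep p S L)) →ₗ[ZMod p] ↥(EqLevHom p S L ρ B W) where
  toFun T := ⟨fun σ => e ((T : Module.Dual (ZMod p) (UmodP p S L) →ₗ[ZMod p] V) (evK κ σ)),
    link_mem κ ρ hL hfin hκ heq B W e he3 he4 T.2⟩
  map_add' T T' := by
    apply Subtype.ext
    funext σ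
    show e (((T + T' : ↥(invSub (omegaHom hL) ρ (unitRep p S L))) :
      Module.Dual (ZMod p) (UmodP p S L) →ₗ[ZMod p] V) (evK κ σ)) = _
    rw [Submodule.coe_add, LinearMap.add_apply, map_add]
    rfl
  map_smul' a T := by
    apply Subtype.ext
    funext σ
    show e (((a • T : ↥(invSub (omegaHom hL) ρ (unitRep p S L))) :
      Module.Dual (ZMod p) (UmodP p S L) →ₗ[ZMod p] V) (evK κ σ)) = _
    rw [Submodule.coe_smul, LinearMap.smul_apply, map_smul]
    rfl

theorem linkMap_apply (hL : IsGalLevel p S L) (hfin : FiniteDimensional (ZMod p) (UmodP p S L))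
    (hκ : ∀ u, κ u ∈ LevHom p S L (ZMod p))
    (heq : ∀ (g : GQ) (u : UmodP p S L) (σ : ↥L.fixingSubgroup),
      κ (unitRep p S L (resL L g) u) (conjL L g σ) =
        ((cycloChar p g : (ZMod p)ˣ) : ZMod p) * κ u σ)
    (B : Subgroup (GalL L)) (W : Submodule (ZMod p) V) (e : V →ₗ[ZMod p] V)
    (he3 : ∀ v, e v ∈ W) (he4 : ∀ b ∈ B, ∀ v, e (ρ b v) = ρ b (e v))
    (T : ↥(invSub (omegaHom hL) ρ (unitRep p S L))) (σ : ↥L.fixingSubgroup) :
    ((linkMap κ ρ hL hfin hκ heq B W e he3 he4 T : ↥(EqLevHom p S L ρ B W)) :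
      ↥L.fixingSubgroup → V) σ
      = e ((T : Module.Dual (ZMod p) (UmodP p S L) →ₗ[ZMod p] V) (evK κ σ)) := rfl

end link

/-- **Package LINK.** -/
theorem stmt_LINK : Stmt_LINK := by
  intro p _ S hpS L _ _ hL hfin κ hinj hκ heq V _ _ _ ρ B W hpB hind
  obtain ⟨e, he1, he2, he3, he4, he5⟩ := H47.exists_indProj ρ B W hind
  refine ⟨H15.linkMap κ ρ hL hfin hκ heq B W e he3 he4, ?_⟩
  rw [injective_iff_map_eq_zero]
  intro T h0
  have h1 : ∀ σ : ↥L.fixingSubgroup,
      e ((T : Module.Dual (ZMod p) (UmodP p S L) →ₗ[ZMod p] V) (H15.evK κ σ)) = 0 := by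
    intro σ
    have := congrFun (congrArg Subtype.val h0) σ
    rw [H15.linkMap_apply] at this
    exact this
  letI : Fintype (GalL L) := Fintype.ofFinite _
  have h2 : ∀ σ : ↥L.fixingSubgroup,
      (T : Module.Dual (ZMod p) (UmodP p S L) →ₗ[ZMod p] V) (H15.evK κ σ) = 0 := by
    intro σ
    have h3 := he5 ((T : Module.Dual (ZMod p) (UmodP p S L) →ₗ[ZMod p] V) (H15.evK κ σ))
    have h4 : ∀ g : GalL L, ρ g (e (ρ g⁻¹
        ((T : Module.Dual (ZMod p) (UmodP p S L) →ₗ[ZMod p] V) (H15.evK κ σ)))) = 0 := by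
      intro g
      obtain ⟨g', hg'⟩ := resL_surjective L g⁻¹
      rw [← hg', ← H15.hT_conj κ ρ hL heq T.2 g' σ, h1, map_zero]
    rw [Finset.sum_congr rfl fun g _ => h4 g, Finset.sum_const_zero] at h3
    have h5 : ((Nat.card B : ℕ) : ZMod p) ≠ 0 := by
      intro h6
      exact hpB ((ZMod.natCast_eq_zero_iff _ _).1 h6)
    exact (smul_eq_zero.1 h3.symm).resolve_left h5
  apply Subtype.ext
  apply LinearMap.ext_on_range (H15.span_evK κ hfin hinj)
  intro σ
  rw [h2 σ]
  rfl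

end Fermat.Agent.S56.EC.KDT.H15

end
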