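import Fermat.Agent.S56.EC.KDT.Defs_KDO
import Fermat.Agent.S56.EC.H47_Higman

set_option autoImplicit false
set_option linter.style.haveILetI false
set_option linter.unusedSectionVars false

/-!
# EC / KDALG, part KDO, leaf HIGMAN (helper47)

`stmt_HIGMAN : Stmt_HIGMAN` (`EC/KDT/Defs_KDO.lean`), from `EC.H47.higman`
(`EC/H47_Higman.lean`): `twFix ω ρ D = eigSub ρ ω D` and
`fixedSub p D (twDual ω ρ) = dualFixSub ρ ω D` by definition.
-/

noncomputable section

namespace Fermat.Agent.S56.EC.KDT.H47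

open Module

/-- **HIGMAN.** -/
theorem stmt_HIGMAN : Stmt_HIGMAN := by
  intro p _ G _ _ ω V _ _ _ ρ s₀ hs₀ D
  letI : Fintype G := Fintype.ofFinite G
  exact EC.H47.higman (ρ := ρ) ω D (s₀ := s₀) (fun v => hs₀ v)

end Fermat.Agent.S56.EC.KDT.H47

end
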