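import Fermat.Agent.S56.EC.KDT.Defs_KDO
import Fermat.Agent.S56.IND.H74_BN
import Fermat.Agent.S56.IND.H74_PERM
import Fermat.Agent.S56.IND.Asm

set_option autoImplicit false
set_option linter.unusedSectionVars false
set_option linter.style.haveILetI false

/-!
# EC / KDALG, leaf BNREL (helper74)

`stmt_BNREL : Stmt_BNREL`: the equivariant unit theorem `Stmt_UBR` (a relation between Brauer
characters) gives, by Brauer-Nesbitt, the same relation for every additive function.
-/

noncomputable section

namespace Fermat.Agent.S56.EC.KDT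

open CategoryTheory groupCohomology ExtCitation Module Polynomial

/-! ### The Brauer character of a one-dimensional representation -/

theorem charpoly_smul_id_self {k : Type} [Field k] (c : k) :
    LinearMap.charpoly (c • (LinearMap.id : k →ₗ[k] k)) = X - C c := by
  rw [← LinearMap.charpoly_toMatrix _ (Module.Basis.singleton Unit k)]
  unfold Matrix.charpoly
  rw [Matrix.det_unique, Matrix.charmatrix_apply_eq, LinearMap.toMatrix_apply]
  simp

theorem brauer_charRep (p : ℕ) [Fact p.Prime] {k : Type} [Field k] {G : Type} [Group G]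
    (ω : G →* kˣ) (g : G) :
    IND.brauer p (charRep ω) g =
      WittVector.teichmuller p (algebraMap k (AlgebraicClosure k) ((ω g : kˣ) : k)) := by
  unfold IND.brauer
  have h1 : LinearMap.charpoly (charRep ω g) = X - C ((ω g : kˣ) : k) :=
    charpoly_smul_id_self _
  rw [h1, Polynomial.aroots_X_sub_C, Multiset.map_singleton, Multiset.sum_singleton]

/-! ### The index set of the relation -/

section rel

variable {p : ℕ} [Fact p.Prime] {S : Finset Nat.Primes}
  {L : IntermediateField ℚ (AlgebraicClosure ℚ)} [Normal ℚ L] [FiniteDimensional ℚ L]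

/-- The representations of the relation. -/
def relRep (hL : IsGalLevel p S L) :
    Option (Option (Option (Option ↥S))) → Rep.{0} (ZMod p) (GalL L)
  | none => Rep.of (unitRep p S L)
  | some none =>
      Rep.of (IND.permRep (ZMod p) (GalL L) (GalL L ⧸ (⊤ : Subgroup (GalL L))))
  | some (some none) => Rep.of (charRep (omegaHom hL))
  | some (some (some none)) => Rep.of (IND.permRep (ZMod p) (GalL L) (GalL L ⧸ decInf L))
  | some (some (some (some q))) =>
      Rep.of (IND.permRep (ZMod p) (GalL L) (GalL L ⧸ decL L q.1))

/-- The coefficients of the relation. -/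
def relCoef : Option (Option (Option (Option ↥S))) → ℤ
  | none => 1
  | some none => 1
  | _ => -1

theorem card_fixed_top {G : Type} [Group G] (g : G) :
    Nat.card {x : G ⧸ (⊤ : Subgroup G) // g • x = x} = 1 := by
  haveI : Subsingleton (G ⧸ (⊤ : Subgroup G)) := QuotientGroup.subsingleton_quotient_top
  haveI : Unique {x : G ⧸ (⊤ : Subgroup G) // g • x = x} :=
    { default := ⟨QuotientGroup.mk 1, Subsingleton.elim _ _⟩
      uniq := fun _ => Subtype.ext (Subsingleton.elim _ _) }
  exact Nat.card_unique

end rel

/-- **BNREL.** -/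
theorem stmt_BNREL : Stmt_BNREL := by
  intro hubr p _ hp2 S hpS L _ _ hL F hF
  obtain ⟨hfin, hbr⟩ := hubr p hp2 S hpS L hL
  haveI := hfin
  haveI : Finite (GalL L) := inferInstance
  have hBR := IND.H74.stmt_BR
  have hfd : ∀ i, FiniteDimensional (ZMod p) (relRep (p := p) (S := S) hL i) := by
    intro i
    match i with
    | none => exact hfin
    | some none =>
      exact (inferInstance : FiniteDimensional (ZMod p)
        (GalL L ⧸ (⊤ : Subgroup (GalL L)) → ZMod p))
    | some (some none) => exact (inferInstance : FiniteDimensional (ZMod p) (ZMod p))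
    | some (some (some none)) =>
      exact (inferInstance : FiniteDimensional (ZMod p) (GalL L ⧸ decInf L → ZMod p))
    | some (some (some (some q))) =>
      exact (inferInstance : FiniteDimensional (ZMod p) (GalL L ⧸ decL L q.1 → ZMod p))
  -- the relation between Brauer characters at `p`-regular elements
  have hreg : ∀ g : GalL L, ¬ p ∣ orderOf g →
      ∑ i, relCoef (S := S) i • IND.brauerFn p (relRep (p := p) (S := S) hL i) g = 0 := by
    intro g hg
    obtain ⟨gt, rfl⟩ := resL_surjective L g
    have h := hbr gt hg
    rw [Fintype.sum_option, Fintype.sum_option, Fintype.sum_option, Fintype.sum_option]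
    simp only [relRep, relCoef]
    rw [IND.brauerFn_of, IND.brauerFn_of, IND.brauerFn_of, IND.brauerFn_of,
      IND.H74.stmt_PERM p (ZMod p) (GalL L) _ _ hg, IND.H74.stmt_PERM p (ZMod p) (GalL L) _ _ hg,
      brauer_charRep, card_fixed_top, omegaHom_apply, omegaL_resL hL]
    rw [IND.brauerFn_of] at h
    have h2 : ∑ q : ↥S, (-1 : ℤ) • IND.brauerFn p
        (Rep.of (IND.permRep (ZMod p) (GalL L) (GalL L ⧸ decL L q.1))) (resL L gt) =
        - ∑ q ∈ S, (Nat.card {x : GalL L ⧸ decL L q // resL L gt • x = x} :
          IND.WK p (ZMod p)) := by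
      rw [← Finset.sum_coe_sort S, ← Finset.sum_neg_distrib]
      refine Finset.sum_congr rfl fun q _ => ?_
      rw [IND.brauerFn_of, IND.H74.stmt_PERM p (ZMod p) (GalL L) _ _ hg, neg_smul, one_smul]
    rw [h2, one_smul, one_smul, neg_smul, one_smul, neg_smul, one_smul, Nat.cast_one]
    linear_combination h
  -- at all elements
  have hall : ∀ g : GalL L,
      ∑ i, relCoef (S := S) i • IND.brauerFn p (relRep (p := p) (S := S) hL i) g = 0 := by
    intro g
    obtain ⟨j, hj⟩ := IND.exists_pow_regular p (ZMod p) (GalL L) g
    have h := hreg _ hj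
    rw [← h]
    refine Finset.sum_congr rfl fun i _ => ?_
    congr 1
    haveI := hfd i
    rw [IND.H74.brauerFn_eq]
    exact (IND.brauer_pow_card_pow hBR p (ZMod p) (GalL L) _ _ g j).symm
  have hmain := IND.H74.stmt_BN p (ZMod p) (GalL L) _ (relRep (p := p) (S := S) hL) hfd
    (relCoef (S := S)) hall F hF
  rw [Fintype.sum_option, Fintype.sum_option, Fintype.sum_option, Fintype.sum_option] at hmain
  simp only [relRep, relCoef] at hmain
  have h3 : ∑ q : ↥S, (-1 : ℤ) *
      F (Rep.of (IND.permRep (ZMod p) (GalL L) (GalL L ⧸ decL L q.1))) =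
      - ∑ q ∈ S, F (Rep.of (IND.permRep (ZMod p) (GalL L) (GalL L ⧸ decL L q))) := by
    rw [← Finset.sum_coe_sort S, ← Finset.sum_neg_distrib]
    refine Finset.sum_congr rfl fun q _ => ?_
    ring
  rw [h3] at hmain
  linarith

end Fermat.Agent.S56.EC.KDT

end
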