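import Fermat.Agent.S56.EC.Defs_KD

set_option autoImplicit false
set_option linter.unusedSectionVars false
set_option linter.style.haveILetI false

/-!
# EC / KDALG (helper74): twisted invariants in the dual of the regular representation

`G` a finite group, `ω : G →* 𝔽ˣ`, `D ≤ G`.  On the dual of `G → 𝔽` (regular representation
`IND.permRep 𝔽 G G`) let `T b = ω(b) • ρ.dual b`.  Then the subspace fixed by all `T b`, `b ∈ D`,
has dimension `[G : D]`.
-/

noncomputable section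

namespace Fermat.Agent.S56.EC.KDT

open Module

section fix

variable {p : ℕ} [Fact p.Prime] {G : Type} [Group G]

/-- The twisted dual operators `T b = ω(b) • ρ.dual b` of the regular representation. -/
def twOp (ω : G →* (ZMod p)ˣ) (b : G) :
    Module.Dual (ZMod p) (G → ZMod p) →ₗ[ZMod p] Module.Dual (ZMod p) (G → ZMod p) :=
  ((ω b : (ZMod p)ˣ) : ZMod p) • ((IND.permRep (ZMod p) G G).dual b)

theorem twOp_apply (ω : G →* (ZMod p)ˣ) (b : G) (φ : Module.Dual (ZMod p) (G → ZMod p))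
    (v : G → ZMod p) :
    twOp ω b φ v = ((ω b : (ZMod p)ˣ) : ZMod p) * φ (fun x => v (b * x)) := by
  unfold twOp
  rw [LinearMap.smul_apply, LinearMap.smul_apply, smul_eq_mul, Representation.dual_apply,
    Module.Dual.transpose_apply, LinearMap.comp_apply]
  congr 2
  funext x
  rw [IND.permRep_apply, inv_inv, smul_eq_mul]

variable (D : Subgroup G)

/-- `d_y = y · s(y⁻¹ D) ∈ D`. -/
def dOf (y : G) : G := y * (QuotientGroup.mk y⁻¹ : G ⧸ D).out

theorem dOf_mem (y : G) : dOf D y ∈ D := by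
  unfold dOf
  have h := QuotientGroup.out_eq' (QuotientGroup.mk y⁻¹ : G ⧸ D)
  have h2 := QuotientGroup.eq.1 h
  simpa using D.inv_mem h2

theorem mk_inv_mul (b : G) (hb : b ∈ D) (z : G) :
    (QuotientGroup.mk (b⁻¹ * z)⁻¹ : G ⧸ D) = QuotientGroup.mk z⁻¹ := by
  rw [QuotientGroup.eq]
  simpa using hb

theorem dOf_mul (b : G) (hb : b ∈ D) (z : G) : dOf D (b⁻¹ * z) = b⁻¹ * dOf D z := by
  unfold dOf
  rw [mk_inv_mul D b hb, mul_assoc]

theorem dOf_mul_out_inv (y : G) : dOf D y * ((QuotientGroup.mk y⁻¹ : G ⧸ D).out)⁻¹ = y := by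
  unfold dOf
  rw [mul_inv_cancel_right]

variable [Fintype G] [DecidableEq G]

/-- The coordinates of a functional on coset representatives. -/
def coordMap : Module.Dual (ZMod p) (G → ZMod p) →ₗ[ZMod p] (G ⧸ D → ZMod p) where
  toFun φ x := φ (Pi.single (x.out)⁻¹ 1)
  map_add' _ _ := rfl
  map_smul' _ _ := rfl

theorem coordMap_apply (φ : Module.Dual (ZMod p) (G → ZMod p)) (x : G ⧸ D) :
    coordMap D φ x = φ (Pi.single (x.out)⁻¹ 1) := rfl

/-- The fixed functional with given coordinates. -/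
def fixMap (ω : G →* (ZMod p)ˣ) :
    (G ⧸ D → ZMod p) →ₗ[ZMod p] Module.Dual (ZMod p) (G → ZMod p) :=
  LinearMap.mk₂ (ZMod p)
    (fun ψ v => ∑ y : G, ((ω (dOf D y) : (ZMod p)ˣ) : ZMod p) * ψ (QuotientGroup.mk y⁻¹) * v y)
    (by
      intro ψ ψ' v
      rw [← Finset.sum_add_distrib]
      refine Finset.sum_congr rfl fun y _ => ?_
      rw [Pi.add_apply]
      ring)
    (by
      intro c ψ v
      rw [smul_eq_mul, Finset.mul_sum]
      refine Finset.sum_congr rfl fun y _ => ?_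
      rw [Pi.smul_apply, smul_eq_mul]
      ring)
    (by
      intro ψ v w
      rw [← Finset.sum_add_distrib]
      refine Finset.sum_congr rfl fun y _ => ?_
      rw [Pi.add_apply]
      ring)
    (by
      intro c ψ v
      rw [smul_eq_mul, Finset.mul_sum]
      refine Finset.sum_congr rfl fun y _ => ?_
      rw [Pi.smul_apply, smul_eq_mul]
      ring)

theorem fixMap_apply (ω : G →* (ZMod p)ˣ) (ψ : G ⧸ D → ZMod p) (v : G → ZMod p) :
    fixMap D ω ψ v = ∑ y : G, ((ω (dOf D y) : (ZMod p)ˣ) : ZMod p) *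
        ψ (QuotientGroup.mk y⁻¹) * v y := rfl

theorem fixMap_mem (ω : G →* (ZMod p)ˣ) (ψ : G ⧸ D → ZMod p) :
    fixMap D ω ψ ∈ fixedSub p (D : Set G) (twOp ω) := by
  intro b hb
  apply LinearMap.ext
  intro v
  rw [twOp_apply, fixMap_apply, fixMap_apply, Finset.mul_sum]
  -- reindex `y = b⁻¹ z`
  rw [← Equiv.sum_comp (Equiv.mulLeft b⁻¹)]
  refine Finset.sum_congr rfl fun z _ => ?_
  rw [Equiv.coe_mulLeft, dOf_mul D b hb, mk_inv_mul D b hb, mul_inv_cancel_left, map_mul,
    map_inv, Units.val_mul]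
  have h1 : ((ω b : (ZMod p)ˣ) : ZMod p) * (((ω b)⁻¹ : (ZMod p)ˣ) : ZMod p) = 1 := by
    rw [← Units.val_mul, mul_inv_cancel, Units.val_one]
  calc ((ω b : (ZMod p)ˣ) : ZMod p) *
        ((((ω b)⁻¹ : (ZMod p)ˣ) : ZMod p) * ((ω (dOf D z) : (ZMod p)ˣ) : ZMod p) *
          ψ (QuotientGroup.mk z⁻¹) * v z)
      = (((ω b : (ZMod p)ˣ) : ZMod p) * (((ω b)⁻¹ : (ZMod p)ˣ) : ZMod p)) *
          (((ω (dOf D z) : (ZMod p)ˣ) : ZMod p) * ψ (QuotientGroup.mk z⁻¹) * v z) := by ring
    _ = _ := by rw [h1, one_mul]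

theorem coordMap_fixMap (ω : G →* (ZMod p)ˣ) (ψ : G ⧸ D → ZMod p) :
    coordMap D (fixMap D ω ψ) = ψ := by
  funext x
  rw [coordMap_apply, fixMap_apply, Finset.sum_eq_single (x.out)⁻¹]
  · rw [Pi.single_eq_same, mul_one]
    have h1 : (QuotientGroup.mk ((x.out)⁻¹)⁻¹ : G ⧸ D) = x := by
      rw [inv_inv]
      exact QuotientGroup.out_eq' x
    have h2 : dOf D (x.out)⁻¹ = 1 := by
      unfold dOf
      rw [h1, inv_mul_cancel]
    rw [h1, h2, map_one, Units.val_one, one_mul]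
  · intro y _ hy
    rw [Pi.single_eq_of_ne hy, mul_zero]
  · intro h
    exact absurd (Finset.mem_univ _) h

theorem fixMap_coordMap (ω : G →* (ZMod p)ˣ) (φ : Module.Dual (ZMod p) (G → ZMod p))
    (hφ : φ ∈ fixedSub p (D : Set G) (twOp ω)) : fixMap D ω (coordMap D φ) = φ := by
  apply LinearMap.ext
  intro v
  rw [fixMap_apply]
  have hv : v = ∑ y : G, v y • (Pi.single y (1 : ZMod p) : G → ZMod p) := by
    funext x
    rw [Finset.sum_apply, Finset.sum_eq_single x]
    · rw [Pi.smul_apply, Pi.single_eq_same, smul_eq_mul, mul_one]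
    · intro y _ hy
      rw [Pi.smul_apply, Pi.single_eq_of_ne (Ne.symm hy), smul_zero]
    · intro h
      exact absurd (Finset.mem_univ _) h
  conv_rhs => rw [hv, map_sum]
  refine Finset.sum_congr rfl fun y _ => ?_
  rw [map_smul, smul_eq_mul, coordMap_apply]
  -- the key relation
  have hfix := hφ (dOf D y) (dOf_mem D y)
  have h1 := congrArg (fun ψ : Module.Dual (ZMod p) (G → ZMod p) => ψ (Pi.single y 1)) hfix
  simp only [twOp_apply] at h1
  have h2 : (fun x => (Pi.single y (1 : ZMod p) : G → ZMod p) (dOf D y * x)) =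
      Pi.single ((QuotientGroup.mk y⁻¹ : G ⧸ D).out)⁻¹ 1 := by
    funext x
    by_cases hx : x = ((QuotientGroup.mk y⁻¹ : G ⧸ D).out)⁻¹
    · rw [hx, Pi.single_eq_same, dOf_mul_out_inv, Pi.single_eq_same]
    · rw [Pi.single_eq_of_ne hx, Pi.single_eq_of_ne]
      intro h
      apply hx
      have h3 := dOf_mul_out_inv D y
      have h4 : dOf D y * x = dOf D y * ((QuotientGroup.mk y⁻¹ : G ⧸ D).out)⁻¹ := by
        rw [h, h3]
      exact mul_left_cancel h4
  rw [h2] at h1
  rw [h1, mul_comm]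

/-- The fixed subspace is isomorphic to the functions on `G ⧸ D`. -/
def fixEquiv (ω : G →* (ZMod p)ˣ) :
    ↥(fixedSub p (D : Set G) (twOp ω)) ≃ₗ[ZMod p] (G ⧸ D → ZMod p) where
  toFun φ := coordMap D φ.1
  map_add' _ _ := rfl
  map_smul' _ _ := rfl
  invFun ψ := ⟨fixMap D ω ψ, fixMap_mem D ω ψ⟩
  left_inv φ := Subtype.ext (fixMap_coordMap D ω φ.1 φ.2)
  right_inv ψ := coordMap_fixMap D ω ψ

end fix

/-- **Twisted invariants of the dual of the regular representation**: dimension `[G : D]`. -/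
theorem finrank_fixedSub_twOp {p : ℕ} [Fact p.Prime] {G : Type} [Group G] [Finite G]
    (D : Subgroup G) (ω : G →* (ZMod p)ˣ) :
    finrank (ZMod p) ↥(fixedSub p (D : Set G) (twOp ω)) = Nat.card (G ⧸ D) := by
  classical
  haveI := Fintype.ofFinite G
  haveI := Fintype.ofFinite (G ⧸ D)
  rw [(fixEquiv D ω).finrank_eq, Module.finrank_fintype_fun_eq_card, Nat.card_eq_fintype_card]

end Fermat.Agent.S56.EC.KDT

end
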