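import Fermat.Agent.S56.EC.KDT.Defs_KDO

set_option autoImplicit false
set_option linter.unusedSectionVars false
set_option linter.style.haveILetI false

/-!
# EC / KDALG, leaves PSICHAR and PSIPERM (helper74)

* `stmt_PSICHAR : Stmt_PSICHAR` : `Ψ(k(ω)) = dim V^G`;
* `stmt_PSIPERM : Stmt_PSIPERM` : `Ψ(k[G/D]) = dim V^{D,ω}`.
-/

noncomputable section

namespace Fermat.Agent.S56.EC.KDT

open Module

section char

variable {k : Type} [Field k] {G : Type} [Group G] (ω : G →* kˣ)
  {V : Type} [AddCommGroup V] [Module k V] (ρ : Representation k G V)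

theorem twDual_charRep (g : G) (φ : Module.Dual k k) : twDual ω (charRep ω) g φ = φ := by
  apply LinearMap.ext
  intro a
  rw [twDual_apply, charRep_apply, map_inv, mul_comm _ a, ← smul_eq_mul a, map_smul, smul_eq_mul]
  have h : ((ω g : kˣ) : k) * (((ω g)⁻¹ : kˣ) : k) = 1 := by
    rw [← Units.val_mul, mul_inv_cancel, Units.val_one]
  have h2 : φ (((ω g)⁻¹ : kˣ) : k) = (((ω g)⁻¹ : kˣ) : k) * φ 1 := by
    have := map_smul φ (((ω g)⁻¹ : kˣ) : k) (1 : k)
    rw [smul_eq_mul, mul_one, smul_eq_mul] at this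
    exact this
  have h3 : φ a = a * φ 1 := by
    have := map_smul φ a (1 : k)
    rw [smul_eq_mul, mul_one, smul_eq_mul] at this
    exact this
  rw [h2, h3]
  calc ((ω g : kˣ) : k) * (a * ((((ω g)⁻¹ : kˣ) : k) * φ 1))
      = (((ω g : kˣ) : k) * (((ω g)⁻¹ : kˣ) : k)) * (a * φ 1) := by ring
    _ = a * φ 1 := by rw [h, one_mul]

/-- `Hom_G(k(ω)*(ω), V) ≃ V^G`. -/
def charEquiv : ↥(invSub ω ρ (charRep ω)) ≃ₗ[k] ↥(ρ.invariants) where
  toFun T := ⟨T.1 LinearMap.id, fun g => by
    have h := (mem_invSub ω ρ (charRep ω) T.1).1 T.2 g LinearMap.id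
    rw [twDual_charRep] at h
    exact h.symm⟩
  map_add' _ _ := rfl
  map_smul' _ _ := rfl
  invFun v :=
    ⟨{ toFun := fun φ => φ 1 • (v : V)
       map_add' := fun φ ψ => by rw [LinearMap.add_apply, add_smul]
       map_smul' := fun c φ => by
        rw [LinearMap.smul_apply, smul_eq_mul, mul_smul, RingHom.id_apply] },
      (mem_invSub ω ρ (charRep ω) _).2 fun g φ => by
        show (twDual ω (charRep ω) g φ) 1 • (v : V) = ρ g (φ 1 • (v : V))
        rw [twDual_charRep, map_smul, v.2 g]⟩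
  left_inv T := by
    apply Subtype.ext
    apply LinearMap.ext
    intro φ
    show φ 1 • T.1 LinearMap.id = T.1 φ
    rw [← map_smul]
    congr 1
    apply LinearMap.ext
    intro a
    rw [LinearMap.smul_apply, LinearMap.id_apply, smul_eq_mul]
    have := map_smul φ a (1 : k)
    rw [smul_eq_mul, mul_one, smul_eq_mul] at this
    rw [this, mul_comm]
  right_inv v := by
    apply Subtype.ext
    show (LinearMap.id : k →ₗ[k] k) 1 • (v : V) = v
    rw [LinearMap.id_apply, one_smul]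

end char

/-- **PSICHAR.** -/
theorem stmt_PSICHAR : Stmt_PSICHAR := by
  intro k _ G _ _ ω V _ _ _ ρ
  unfold psi
  exact congrArg _ (charEquiv ω ρ).finrank_eq

section perm

variable {k : Type} [Field k] {G : Type} [Group G] (ω : G →* kˣ)
  {V : Type} [AddCommGroup V] [Module k V] (ρ : Representation k G V)
  {X : Type} [MulAction G X] [Fintype X] [DecidableEq X]

/-- The evaluation at `x`. -/
def evX (x : X) : Module.Dual k (X → k) := LinearMap.proj x

theorem evX_apply (x : X) (f : X → k) : evX (k := k) x f = f x := rfl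

theorem twDual_evX (g : G) (x : X) :
    twDual ω (IND.permRep k G X) g (evX x) = ((ω g : kˣ) : k) • evX (g • x) := by
  apply LinearMap.ext
  intro f
  rw [twDual_apply, LinearMap.smul_apply, smul_eq_mul, evX_apply, evX_apply,
    IND.permRep_apply, inv_inv]

theorem dual_eq_sum (φ : Module.Dual k (X → k)) :
    φ = ∑ y : X, φ (Pi.single y 1) • evX y := by
  apply LinearMap.ext
  intro f
  have hf : f = ∑ y : X, f y • (Pi.single y (1 : k) : X → k) := by
    funext x
    rw [Finset.sum_apply, Finset.sum_eq_single x]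
    · rw [Pi.smul_apply, Pi.single_eq_same, smul_eq_mul, mul_one]
    · intro y _ hy
      rw [Pi.smul_apply, Pi.single_eq_of_ne (Ne.symm hy), smul_zero]
    · intro h
      exact absurd (Finset.mem_univ _) h
  conv_lhs => rw [hf, map_sum]
  rw [LinearMap.sum_apply]
  refine Finset.sum_congr rfl fun y _ => ?_
  rw [map_smul, LinearMap.smul_apply, evX_apply, smul_eq_mul, smul_eq_mul, mul_comm]

theorem inv_evX_smul {T : Module.Dual k (X → k) →ₗ[k] V}
    (hT : T ∈ invSub ω ρ (IND.permRep k G X)) (g : G) (x : X) :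
    T (evX (g • x)) = (((ω g)⁻¹ : kˣ) : k) • ρ g (T (evX x)) := by
  have h := (mem_invSub ω ρ _ T).1 hT g (evX x)
  rw [twDual_evX, map_smul] at h
  rw [← h, smul_smul, ← Units.val_mul, inv_mul_cancel, Units.val_one, one_smul]

end perm

section quot

variable {k : Type} [Field k] {G : Type} [Group G] (ω : G →* kˣ)
  {V : Type} [AddCommGroup V] [Module k V] (ρ : Representation k G V) (D : Subgroup G)
  [Fintype (G ⧸ D)] [DecidableEq (G ⧸ D)]

/-- `c_x = ω(out x)⁻¹ • ρ(out x) v`. -/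
def cOf (v : V) (x : G ⧸ D) : V := (((ω x.out)⁻¹ : kˣ) : k) • ρ x.out v

theorem cOf_mk (v : V) (hv : v ∈ twFix ω ρ (D : Set G)) (g : G) :
    cOf ω ρ D v (QuotientGroup.mk g) = (((ω g)⁻¹ : kˣ) : k) • ρ g v := by
  unfold cOf
  set s := (QuotientGroup.mk g : G ⧸ D).out with hs
  have hd : g⁻¹ * s ∈ D := by
    have h := QuotientGroup.out_eq' (QuotientGroup.mk g : G ⧸ D)
    have h2 := QuotientGroup.eq.1 h
    have h3 := D.inv_mem h2
    simpa using h3
  have hsg : s = g * (g⁻¹ * s) := by rw [mul_inv_cancel_left]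
  have h1 : ρ s v = ρ g (ρ (g⁻¹ * s) v) := by
    conv_lhs => rw [hsg, map_mul]
    rfl
  have h2 : ω s = ω g * ω (g⁻¹ * s) := by
    conv_lhs => rw [hsg, map_mul]
  have h3 : (ω s)⁻¹ * ω (g⁻¹ * s) = (ω g)⁻¹ := by
    rw [h2, mul_inv_rev, mul_assoc, mul_comm (ω g)⁻¹, ← mul_assoc, inv_mul_cancel, one_mul]
  rw [h1, hv _ hd, map_smul, smul_smul, ← Units.val_mul, h3]

theorem cOf_smul (v : V) (hv : v ∈ twFix ω ρ (D : Set G)) (g : G) (y : G ⧸ D) :
    ((ω g : kˣ) : k) • cOf ω ρ D v (g • y) = ρ g (cOf ω ρ D v y) := by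
  induction y using QuotientGroup.induction_on with
  | H z =>
    have h1 : g • (QuotientGroup.mk z : G ⧸ D) = QuotientGroup.mk (g * z) := rfl
    have h3 : ω g * (ω (g * z))⁻¹ = (ω z)⁻¹ := by
      rw [map_mul, mul_inv_rev, mul_comm (ω z)⁻¹, ← mul_assoc, mul_inv_cancel, one_mul]
    rw [h1, cOf_mk ω ρ D v hv, cOf_mk ω ρ D v hv, map_smul, smul_smul, ← Units.val_mul, h3,
      map_mul]
    rfl

/-- The map `T_v : φ ↦ ∑_x φ(δ_x) • c_x`. -/
def permT (v : V) : Module.Dual k (G ⧸ D → k) →ₗ[k] V where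
  toFun φ := ∑ x : G ⧸ D, φ (Pi.single x 1) • cOf ω ρ D v x
  map_add' φ ψ := by
    rw [← Finset.sum_add_distrib]
    refine Finset.sum_congr rfl fun x _ => ?_
    rw [LinearMap.add_apply, add_smul]
  map_smul' c φ := by
    rw [RingHom.id_apply, Finset.smul_sum]
    refine Finset.sum_congr rfl fun x _ => ?_
    rw [LinearMap.smul_apply, smul_eq_mul, mul_smul]

theorem permT_apply (v : V) (φ : Module.Dual k (G ⧸ D → k)) :
    permT ω ρ D v φ = ∑ x : G ⧸ D, φ (Pi.single x 1) • cOf ω ρ D v x := rfl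

theorem permT_evX (v : V) (y : G ⧸ D) : permT ω ρ D v (evX y) = cOf ω ρ D v y := by
  rw [permT_apply, Finset.sum_eq_single y]
  · rw [evX_apply, Pi.single_eq_same, one_smul]
  · intro x _ hx
    rw [evX_apply, Pi.single_eq_of_ne (Ne.symm hx), zero_smul]
  · intro h
    exact absurd (Finset.mem_univ _) h

theorem permT_mem (v : V) (hv : v ∈ twFix ω ρ (D : Set G)) :
    permT ω ρ D v ∈ invSub ω ρ (IND.permRep k G (G ⧸ D)) := by
  rw [mem_invSub]
  intro g φ
  conv_lhs => rw [dual_eq_sum φ, map_sum, map_sum]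
  conv_rhs => rw [dual_eq_sum φ, map_sum, map_sum]
  refine Finset.sum_congr rfl fun y _ => ?_
  rw [map_smul, map_smul, map_smul, map_smul, twDual_evX, map_smul, permT_evX, permT_evX,
    cOf_smul ω ρ D v hv]

/-- `Hom_G(k[G/D]*(ω), V) ≃ V^{D,ω}`. -/
def permEquiv : ↥(invSub ω ρ (IND.permRep k G (G ⧸ D))) ≃ₗ[k] ↥(twFix ω ρ (D : Set G)) where
  toFun T := ⟨T.1 (evX (QuotientGroup.mk 1)), fun d hd => by
    have h := inv_evX_smul ω ρ T.2 d (QuotientGroup.mk 1 : G ⧸ D)
    have h1 : d • (QuotientGroup.mk 1 : G ⧸ D) = QuotientGroup.mk 1 := by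
      show (QuotientGroup.mk (d * 1) : G ⧸ D) = QuotientGroup.mk 1
      rw [QuotientGroup.eq]
      simpa using D.inv_mem hd
    rw [h1] at h
    conv_rhs => rw [h]
    rw [smul_smul, ← Units.val_mul, mul_inv_cancel, Units.val_one, one_smul]⟩
  map_add' _ _ := rfl
  map_smul' _ _ := rfl
  invFun v := ⟨permT ω ρ D v.1, permT_mem ω ρ D v.1 v.2⟩
  left_inv T := by
    apply Subtype.ext
    apply LinearMap.ext
    intro φ
    show permT ω ρ D (T.1 (evX (QuotientGroup.mk 1))) φ = T.1 φ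
    conv_rhs => rw [dual_eq_sum φ, map_sum]
    rw [permT_apply]
    refine Finset.sum_congr rfl fun y _ => ?_
    rw [map_smul]
    congr 1
    unfold cOf
    have h := inv_evX_smul ω ρ T.2 y.out (QuotientGroup.mk 1 : G ⧸ D)
    have h1 : y.out • (QuotientGroup.mk 1 : G ⧸ D) = y := by
      show (QuotientGroup.mk (y.out * 1) : G ⧸ D) = y
      rw [mul_one]
      exact QuotientGroup.out_eq' y
    rw [h1] at h
    exact h.symm
  right_inv v := by
    apply Subtype.ext
    show permT ω ρ D v.1 (evX (QuotientGroup.mk 1)) = v.1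
    rw [permT_evX, cOf_mk ω ρ D v.1 v.2, map_one, inv_one, Units.val_one, one_smul, map_one]
    rfl

end quot

/-- **PSIPERM.** -/
theorem stmt_PSIPERM : Stmt_PSIPERM := by
  classical
  intro k _ G _ _ ω V _ _ _ ρ D
  haveI := Fintype.ofFinite (G ⧸ D)
  unfold psi
  exact congrArg _ (permEquiv ω ρ D).finrank_eq

end Fermat.Agent.S56.EC.KDT

end
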