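import Fermat.Agent.S56.EC.KDT.H74_BNREL
import Fermat.Agent.S56.EC.KDT.H74_PsiEval
import Fermat.Agent.S56.EC.KDT.H15_Link
import Fermat.Agent.S56.EC.H47_Higman

set_option autoImplicit false
set_option linter.unusedSectionVars false
set_option linter.style.haveILetI false

/-!
# EC / KDALG: assembly of the KDO part (helper74)

`stmt_KDO_of : Stmt_PSIADD → Stmt_fin_glob → Stmt_SHAPlb → Stmt_KUM → Stmt_UBR → Stmt_LOC0 →
  Stmt_KDO` and `stmt_KDALG_of : Stmt_PSIADD → Stmt_fin_glob → Stmt_KDALG`.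

With `Ψ(A) = dim Hom_G(A*(ω), V)`:
`gwDefect(N) = h¹_S(N) - Ψ(U)` (BNREL, PSIPERM, PSICHAR, HIGMAN, LOC0) and `Ψ(U) ≤ h¹_S(N)`
(LINK, SHAPlb).
-/

noncomputable section

namespace Fermat.Agent.S56.EC.KDT

open CategoryTheory groupCohomology ExtCitation Module

section bridge

variable {p : ℕ} [Fact p.Prime] {S : Finset Nat.Primes}
  {L : IntermediateField ℚ (AlgebraicClosure ℚ)} [Normal ℚ L]

theorem omegaHom_eq (hL : IsGalLevel p S L) : H47.omegaHom hL = omegaHom hL :=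
  MonoidHom.ext fun _ => rfl

theorem twFix_eq_eigSub (hL : IsGalLevel p S L) {V : Type} [AddCommGroup V]
    [Module (ZMod p) V] (ρ : Representation (ZMod p) (GalL L) V) (D : Set (GalL L)) :
    twFix (omegaHom hL) ρ D = H47.eigSub ρ (H47.omegaHom hL) D := by
  rw [omegaHom_eq]
  rfl

theorem fixedSub_univ_eq_invariants {V : Type} [AddCommGroup V] [Module (ZMod p) V]
    (ρ : Representation (ZMod p) (GalL L) V) :
    fixedSub p (Set.univ : Set (GalL L)) (fun b => ρ b) = ρ.invariants := by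
  ext v
  constructor
  · intro h g
    exact h g (Set.mem_univ g)
  · intro h g _
    exact h g

end bridge

/-- **KDO** from its leaves. -/
theorem stmt_KDO_of (hadd : Stmt_PSIADD) (hfg : Stmt_fin_glob) (hlb : Stmt_SHAPlb)
    (hkum : Stmt_KUM) (hubr : Stmt_UBR) (hloc : Stmt_LOC0) : Stmt_KDO := by
  intro p _ hp2 S hpS L _ _ hgood V _ _ _ ρ B W _ hpB hind
  have hL : IsGalLevel p S L := hgood.1
  haveI : Finite (GalL L) := inferInstance
  obtain ⟨κ, hκinj, hκlev, hκeq, -⟩ := hkum p S hpS L hL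
  obtain ⟨hfin, -⟩ := hubr p hp2 S hpS L hL
  -- relative projectivity
  have hB0 : ((Nat.card B : ℕ) : ZMod p) ≠ 0 := fun h0 =>
    hpB ((ZMod.natCast_eq_zero_iff _ _).1 h0)
  obtain ⟨s₀, hs₀⟩ := H47.exists_relProj ρ B W hind hB0
  have hrel : IsRelProj ρ s₀ := fun {_} v => hs₀ v
  have hF : IND.IsAdditiveFn (ZMod p) (GalL L) (psi (omegaHom hL) ρ) :=
    hadd (ZMod p) (GalL L) (omegaHom hL) V ρ s₀ hrel
  have hR := stmt_BNREL hubr p hp2 S hpS L hL (psi (omegaHom hL) ρ) hF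
  -- the `h⁰`-terms
  obtain ⟨hq, hinf, hglob, hN⟩ := hloc p S hpS L hL V ρ
  have key : ∀ D : Subgroup (GalL L),
      psi (omegaHom hL) ρ (Rep.of (IND.permRep (ZMod p) (GalL L) (GalL L ⧸ D))) =
        (finrank (ZMod p) ↥(fixedSub p (D : Set (GalL L)) (dualTwistOp p L ρ)) : ℤ) := by
    intro D
    rw [stmt_PSIPERM (ZMod p) (GalL L) (omegaHom hL) V ρ D, twFix_eq_eigSub hL ρ,
      H47.higman_induced hL ρ B W hpB hind D]
  have h1 : ∀ q : Nat.Primes,
      (finrank (ZMod p) (locRep (tateDual p (infl L ρ)) q).ρ.invariants : ℤ) =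
        psi (omegaHom hL) ρ (Rep.of (IND.permRep (ZMod p) (GalL L) (GalL L ⧸ decL L q))) := by
    intro q
    rw [key, hq q]
  have h2 : (finrank (ZMod p) (Rep.res archimedeanLoc (tateDual p (infl L ρ))).ρ.invariants : ℤ) =
      psi (omegaHom hL) ρ (Rep.of (IND.permRep (ZMod p) (GalL L) (GalL L ⧸ decInf L))) := by
    rw [key, hinf]
  have h3 : (finrank (ZMod p) (tateDual p (infl L ρ)).ρ.invariants : ℤ) =
      psi (omegaHom hL) ρ
        (Rep.of (IND.permRep (ZMod p) (GalL L) (GalL L ⧸ (⊤ : Subgroup (GalL L))))) := by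
    rw [key, hglob, Subgroup.coe_top]
  have h4 : (finrank (ZMod p) (infl L ρ).ρ.invariants : ℤ) =
      psi (omegaHom hL) ρ (Rep.of (charRep (omegaHom hL))) := by
    rw [stmt_PSICHAR (ZMod p) (GalL L) (omegaHom hL) V ρ, hN, fixedSub_univ_eq_invariants]
  -- `Ψ(U) ≤ h¹_S(N)`
  obtain ⟨f1, hf1⟩ := H15.stmt_LINK p S hpS L hL hfin κ hκinj hκlev hκeq V ρ B W hpB hind
  obtain ⟨f2, hf2⟩ := hlb p hp2 S hpS L hL V ρ B W hpB hind
  haveI : Module.Finite (ZMod p) ↥(continuousH1S S (infl L ρ)) :=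
    hfg (ZMod p) (infl L ρ) (smooth_of_lev (lev_infl L hL ρ)) S
  have h5 : finrank (ZMod p) ↥(invSub (omegaHom hL) ρ (unitRep p S L)) ≤
      finrank (ZMod p) ↥(continuousH1S S (infl L ρ)) :=
    LinearMap.finrank_le_finrank_of_injective (f := f2 ∘ₗ f1) (hf2.comp hf1)
  have h6 : psi (omegaHom hL) ρ (Rep.of (unitRep p S L)) ≤
      (finrank (ZMod p) ↥(continuousH1S S (infl L ρ)) : ℤ) := by
    unfold psi
    exact_mod_cast h5
  -- assembly
  unfold gwDefect
  have h7 : (∑ q ∈ S, (finrank (ZMod p) (locRep (tateDual p (infl L ρ)) q).ρ.invariants : ℤ)) =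
      ∑ q ∈ S, psi (omegaHom hL) ρ
        (Rep.of (IND.permRep (ZMod p) (GalL L) (GalL L ⧸ decL L q))) :=
    Finset.sum_congr rfl fun q _ => h1 q
  rw [h7, h2, h3, h4]
  linarith

/-- **KDALG** from PSIADD and `Stmt_fin_glob`. -/
theorem stmt_KDALG_of (hadd : Stmt_PSIADD) (hfg : Stmt_fin_glob) : Stmt_KDALG :=
  fun hlb hub hkum hubr hloc =>
    ⟨stmt_KDT_of hub hkum hubr hloc, stmt_KDO_of hadd hfg hlb hkum hubr hloc⟩

end Fermat.Agent.S56.EC.KDT

end
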