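import Fermat.Agent.S56.EC.KDT.H74_Fix
import Fermat.Agent.S56.IND.H74_BR

set_option autoImplicit false
set_option linter.unusedSectionVars false
set_option linter.style.haveILetI false

/-!
# EC / KDALG (helper74), part KDT

`stmt_KDT_of : Stmt_SHAPub → Stmt_KUM → Stmt_UBR → Stmt_LOC0 → Stmt_KDT`.

`h¹_S(P) ≤ dim LevHom` (SHAPub) `≤ dim U` (KUM, onto because `Cl_S(L) = 1`),
`dim U = ∑_q [G : D_q] + [G : D_∞]` (UBR at `b = 1`), and the `h⁰`-terms of `P' = P*(1)` are
`[G : D]` (LOC0 + `finrank_fixedSub_twOp`).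
-/

noncomputable section

namespace Fermat.Agent.S56.EC.KDT

open CategoryTheory groupCohomology ExtCitation Module

/-! ### Characteristic zero of the Witt vectors -/

theorem WK_natCast_eq_zero (p : ℕ) [Fact p.Prime] (k : Type) [Field k] [CharP k p] (n : ℕ)
    (h : (n : IND.WK p k) = 0) : n = 0 := by
  have hp : p.Prime := Fact.out
  haveI : CharP (AlgebraicClosure k) p := charP_of_injective_algebraMap
    (algebraMap k (AlgebraicClosure k)).injective p
  by_contra hn
  obtain ⟨a, m, hm, rfl⟩ := Nat.exists_eq_pow_mul_and_not_dvd hn p hp.ne_one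
  rw [Nat.cast_mul, Nat.cast_pow] at h
  have hp0 : (p : IND.WK p k) ≠ 0 := WittVector.p_nonzero p (AlgebraicClosure k)
  rcases mul_eq_zero.1 h with h1 | h1
  · exact hp0 (pow_eq_zero_iff (n := a) (by
      rintro rfl
      rw [pow_zero] at h1
      exact one_ne_zero h1) |>.1 h1)
  · have h2 := congrArg (WittVector.constantCoeff (p := p) (R := AlgebraicClosure k)) h1
    rw [map_natCast, map_zero] at h2
    exact hm ((CharP.cast_eq_zero_iff (AlgebraicClosure k) p m).1 h2)

theorem WK_natCast_injective (p : ℕ) [Fact p.Prime] (k : Type) [Field k] [CharP k p] :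
    Function.Injective (Nat.cast : ℕ → IND.WK p k) := by
  haveI : CharZero (IND.WK p k) := charZero_of_inj_zero (WK_natCast_eq_zero p k)
  exact Nat.cast_injective

/-! ### The Brauer character at `1` -/

theorem brauer_one (p : ℕ) [Fact p.Prime] {k : Type} [Field k] {G : Type} [Group G]
    {V : Type} [AddCommGroup V] [Module k V] [FiniteDimensional k V]
    (ρ : Representation k G V) : IND.brauer p ρ 1 = (finrank k V : IND.WK p k) := by
  unfold IND.brauer
  rw [map_one]
  have h1 : LinearMap.charpoly (1 : V →ₗ[k] V) = (Polynomial.X - 1) ^ finrank k V :=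
    LinearMap.charpoly_one
  rw [h1]
  have h2 : ((Polynomial.X - 1 : Polynomial k) ^ finrank k V).aroots (AlgebraicClosure k) =
      finrank k V • ({1} : Multiset (AlgebraicClosure k)) := by
    unfold Polynomial.aroots
    rw [Polynomial.map_pow, Polynomial.map_sub, Polynomial.map_X, Polynomial.map_one,
      Polynomial.roots_pow]
    congr 1
    have : (Polynomial.X - 1 : Polynomial (AlgebraicClosure k)) =
        Polynomial.X - Polynomial.C 1 := by rw [Polynomial.C_1]
    rw [this, Polynomial.roots_X_sub_C]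
  rw [h2, Multiset.map_nsmul, Multiset.sum_nsmul, Multiset.map_singleton, Multiset.sum_singleton,
    map_one, nsmul_eq_mul, mul_one]

/-! ### The cyclotomic character on `Gal(L/ℚ)` as a homomorphism -/

section omega

variable {p : ℕ} [Fact p.Prime] {S : Finset Nat.Primes}
  {L : IntermediateField ℚ (AlgebraicClosure ℚ)} [Normal ℚ L]

/-- `omegaL` as a monoid homomorphism (on a Galois level). -/
def omegaHom (hL : IsGalLevel p S L) : GalL L →* (ZMod p)ˣ where
  toFun := omegaL p L
  map_one' := by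
    have h := omegaL_resL hL (1 : GQ)
    rw [map_one, map_one] at h
    exact h
  map_mul' a b := by
    obtain ⟨g, rfl⟩ := resL_surjective L a
    obtain ⟨h, rfl⟩ := resL_surjective L b
    rw [← map_mul, omegaL_resL hL, omegaL_resL hL, omegaL_resL hL, map_mul]

theorem omegaHom_apply (hL : IsGalLevel p S L) (b : GalL L) :
    omegaHom hL b = omegaL p L b := rfl

theorem dualTwistOp_permRep (hL : IsGalLevel p S L) :
    dualTwistOp p L (IND.permRep (ZMod p) (GalL L) (GalL L)) = twOp (omegaHom hL) := rfl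

end omega

/-! ### Invariants of the regular representation -/

theorem one_le_finrank_invariants_permRep {p : ℕ} [Fact p.Prime] {Γ : Type} [Group Γ]
    {X : Type} [Finite X] (x₀ : X)
    (ρ' : Representation (ZMod p) Γ (X → ZMod p))
    (hρ' : ∀ g, ρ' g (fun _ => (1 : ZMod p)) = fun _ => (1 : ZMod p)) :
    1 ≤ finrank (ZMod p) ↥(ρ'.invariants) := by
  rw [Nat.succ_le_iff, Module.finrank_pos_iff_exists_ne_zero]
  refine ⟨⟨fun _ => 1, fun g => hρ' g⟩, fun h => ?_⟩
  have h1 := congrArg (fun x : ↥(ρ'.invariants) => (x : X → ZMod p) x₀) h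
  exact one_ne_zero h1

/-! ### The main theorem -/

theorem card_fixed_one {G : Type} [Group G] (D : Subgroup G) (g : G) (hg : g = 1) :
    Nat.card {x : G ⧸ D // g • x = x} = Nat.card (G ⧸ D) := by
  subst hg
  exact Nat.card_congr (Equiv.subtypeUnivEquiv fun x => one_smul _ x)

/-- **KDT** from its leaves. -/
theorem stmt_KDT_of (hub : Stmt_SHAPub) (hkum : Stmt_KUM) (hubr : Stmt_UBR) (hloc : Stmt_LOC0) :
    Stmt_KDT := by
  intro p _ hp2 S hpS L _ _ hgood
  have hL : IsGalLevel p S L := hgood.1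
  have hcl : ∀ [NumberField ↥L], S55.CFT.ClTrivial ↥L S := by
    intro inst
    exact hgood.2.1
  obtain ⟨f, hf⟩ := hub p hp2 S hpS L hL
  obtain ⟨κ, -, hκlev, -, hκonto⟩ := hkum p S hpS L hL
  obtain ⟨hfin, hbr⟩ := hubr p hp2 S hpS L hL
  haveI := hfin
  haveI : Finite (GalL L) := inferInstance
  -- `dim LevHom ≤ dim U`
  let κ' : UmodP p S L →ₗ[ZMod p] ↥(LevHom p S L (ZMod p)) :=
    LinearMap.codRestrict (LevHom p S L (ZMod p)) κ hκlev
  have hκ' : Function.Surjective κ' := by
    rintro ⟨h, hh⟩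
    obtain ⟨u, hu⟩ := hκonto hcl h hh
    exact ⟨u, Subtype.ext hu⟩
  haveI : Module.Finite (ZMod p) ↥(LevHom p S L (ZMod p)) := Module.Finite.of_surjective κ' hκ'
  have h1 : finrank (ZMod p)
      ↥(continuousH1S S (infl L (IND.permRep (ZMod p) (GalL L) (GalL L)))) ≤
      finrank (ZMod p) ↥(LevHom p S L (ZMod p)) :=
    LinearMap.finrank_le_finrank_of_injective hf
  have h2 : finrank (ZMod p) ↥(LevHom p S L (ZMod p)) ≤ finrank (ZMod p) (UmodP p S L) :=
    LinearMap.finrank_le_finrank_of_surjective hκ'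
  -- `dim U` from UBR at `1`
  have h3 : finrank (ZMod p) (UmodP p S L) =
      ∑ q ∈ S, Nat.card (GalL L ⧸ decL L q) + Nat.card (GalL L ⧸ decInf L) := by
    have hr1 : resL L (1 : GQ) = 1 := map_one _
    have h := hbr 1 (by
      rw [hr1, orderOf_one]
      exact (Fact.out : p.Prime).not_dvd_one)
    rw [hr1, IND.brauerFn_of, brauer_one, map_one, Units.val_one, map_one, map_one] at h
    have h' : ((finrank (ZMod p) (UmodP p S L) + 1 : ℕ) : IND.WK p (ZMod p)) =
        ((1 + ∑ q ∈ S, Nat.card (GalL L ⧸ decL L q) + Nat.card (GalL L ⧸ decInf L) : ℕ) :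
          IND.WK p (ZMod p)) := by
      push_cast
      rw [h]
      congr 1
      · congr 1
        refine Finset.sum_congr rfl fun q _ => ?_
        rw [card_fixed_one _ _ rfl]
      · rw [card_fixed_one _ _ rfl]
    have h'' := WK_natCast_injective p (ZMod p) h'
    omega
  -- the `h⁰`-terms
  obtain ⟨hq, hinf, hglob, -⟩ := hloc p S hpS L hL (GalL L → ZMod p)
    (IND.permRep (ZMod p) (GalL L) (GalL L))
  have h4 : ∀ q : Nat.Primes, finrank (ZMod p)
      (locRep (tateDual p (infl L (IND.permRep (ZMod p) (GalL L) (GalL L)))) q).ρ.invariants =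
      Nat.card (GalL L ⧸ decL L q) := by
    intro q
    rw [hq q, dualTwistOp_permRep hL]
    exact finrank_fixedSub_twOp (decL L q) (omegaHom hL)
  have h5 : finrank (ZMod p) (Rep.res archimedeanLoc
      (tateDual p (infl L (IND.permRep (ZMod p) (GalL L) (GalL L))))).ρ.invariants =
      Nat.card (GalL L ⧸ decInf L) := by
    rw [hinf, dualTwistOp_permRep hL]
    exact finrank_fixedSub_twOp (decInf L) (omegaHom hL)
  have h6 : finrank (ZMod p)
      (tateDual p (infl L (IND.permRep (ZMod p) (GalL L) (GalL L)))).ρ.invariants = 1 := by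
    rw [hglob, dualTwistOp_permRep hL]
    have h := finrank_fixedSub_twOp (⊤ : Subgroup (GalL L)) (omegaHom hL)
    rw [Subgroup.coe_top] at h
    rw [h]
    haveI : Subsingleton (GalL L ⧸ (⊤ : Subgroup (GalL L))) := QuotientGroup.subsingleton_quotient_top
    exact Nat.card_unique
  have h7 : 1 ≤ finrank (ZMod p)
      (infl L (IND.permRep (ZMod p) (GalL L) (GalL L))).ρ.invariants :=
    one_le_finrank_invariants_permRep (Γ := GQ) (X := GalL L) (1 : GalL L)
      ((IND.permRep (ZMod p) (GalL L) (GalL L)).comp (resL L)) (fun g => rfl)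
  -- assembly
  unfold gwDefect
  rw [h5, h6]
  have h8 : (∑ q ∈ S, (finrank (ZMod p)
      (locRep (tateDual p (infl L (IND.permRep (ZMod p) (GalL L) (GalL L)))) q).ρ.invariants : ℤ)) =
      ((∑ q ∈ S, Nat.card (GalL L ⧸ decL L q) : ℕ) : ℤ) := by
    rw [Nat.cast_sum]
    refine Finset.sum_congr rfl fun q _ => ?_
    rw [h4 q]
  rw [h8]
  have h9 := h1.trans h2
  rw [h3] at h9
  omega

end Fermat.Agent.S56.EC.KDT

end
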